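import Fermat.Agent.S55.Spec.Datum
import Fermat.Agent.S55.Bridge.Krasner
import Fermat.Agent.S55.Bridge.FiniteRam

/-!
# S55, `Tow.LocalSpec` (helper964): clause 3 (LDIV)

Every element of `F_qˣ` becomes a `p`-th power in `F'_qˣ` for some finite Galois `F' ⊇ F`
(a level for a bigger finite set of primes): take a `p`-th root in `ℚ̄_q`, cover the finite
extension it generates by a global level (Krasner, B-layer), enlarge to a Galois level.
-/

set_option autoImplicit false
set_option linter.style.haveILetI false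

open CategoryTheory

namespace Fermat.Agent.S55.LocalSpec.H964

open Fermat.Agent.S55 Fermat.Agent.S55.Tow

/-- Clause 3 of `Tow.LocalSpec` (LDIV). -/
theorem exists_root_in_tower (p : ℕ) (hp : p ≠ 0) (S' : Finset Nat.Primes) (Lv : Level S')
    (q : Nat.Primes) (x : (Lv.locUnits q).V) :
    ∃ (S'' : Finset Nat.Primes) (hS : S' ⊆ S'') (Lv' : Level S'')
      (h : Level.ofLE hS Lv ≤ Lv') (y : (Lv'.locUnits q).V),
      p • y = (Level.trLoc h q).hom x := by
  letI : Fact (q : ℕ).Prime := ⟨q.2⟩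
  -- the underlying element and a `p`-th root
  set a : (PadicAlgCl (q : ℕ))ˣ := Additive.toMul (Lv.locCoe q x) with ha
  obtain ⟨b₀, hb₀⟩ := IsAlgClosed.exists_pow_nat_eq (a : PadicAlgCl (q : ℕ))
    (Nat.pos_of_ne_zero hp)
  have hb₀ne : b₀ ≠ 0 := by
    rintro rfl
    rw [zero_pow hp] at hb₀
    exact a.ne_zero hb₀.symm
  set b : (PadicAlgCl (q : ℕ))ˣ := Units.mk0 b₀ hb₀ne with hb
  have hbp : b ^ p = a := by
    apply Units.ext
    rw [Units.val_pow_eq_pow_val]
    exact hb₀
  -- the finite extension generated by the root, covered by a global level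
  haveI : Algebra.IsAlgebraic ℚ_[(q : ℕ)] (PadicAlgCl (q : ℕ)) :=
    AlgebraicClosure.isAlgebraic ℚ_[(q : ℕ)]
  haveI : FiniteDimensional ℚ_[(q : ℕ)] (IntermediateField.adjoin ℚ_[(q : ℕ)] {b₀}) :=
    IntermediateField.adjoin.finiteDimensional (Algebra.IsIntegral.isIntegral b₀)
  obtain ⟨F₁, hF₁, hcover⟩ := Bridge.exists_global_level_of_local (q : ℕ)
    (IntermediateField.adjoin ℚ_[(q : ℕ)] {b₀})
  haveI := hF₁
  haveI : FiniteDimensional ℚ Lv.F := Lv.unram.1
  have hF₂ : FiniteDimensional ℚ (Lv.F ⊔ F₁ : IntermediateField ℚ Qbar) :=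
    IntermediateField.finiteDimensional_sup Lv.F F₁
  obtain ⟨T, L', hST, hunr, hgal, hle⟩ :=
    Bridge.exists_galois_ge_isUnramifiedOutside S' (Lv.F ⊔ F₁) hF₂
  have hnormal : (L'.fixingSubgroup).Normal := by
    haveI := Bridge.isGalois_Qbar
    exact (InfiniteGalois.normal_iff_isGalois L').mpr hgal
  let Lv' : Level T := ⟨L', hunr, hnormal⟩
  have h : Level.ofLE hST Lv ≤ Lv' := le_sup_left.trans hle
  -- the root lies in `F'_q`
  have hfix : ∀ g ∈ Lv'.V q, (unitsQpbar q).ρ g (Additive.ofMul b) = Additive.ofMul b := by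
    intro g hg
    have hg1 : locQ q g ∈ L'.fixingSubgroup := hg
    have hg2 : locQ q g ∈ F₁.fixingSubgroup :=
      IntermediateField.fixingSubgroup_antitone (le_sup_right.trans hle) hg1
    have hg3 := hcover g hg2
    have hg4 : (show PadicAlgCl (q : ℕ) ≃ₐ[ℚ_[(q : ℕ)]] PadicAlgCl (q : ℕ) from g) b₀ = b₀ :=
      (IntermediateField.mem_fixingSubgroup_iff _ _).1 hg3 b₀
        (IntermediateField.subset_adjoin _ _ (Set.mem_singleton b₀))
    apply Additive.toMul.injective
    apply Units.ext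
    exact hg4
  refine ⟨T, hST, Lv', h, Lv'.locMk q (Additive.ofMul b) hfix, ?_⟩
  apply Lv'.locCoe_injective q
  rw [map_nsmul, Level.locCoe_mk]
  show p • Additive.ofMul b = Lv.locCoe q x
  rw [← ofMul_pow, hbp, ha, ofMul_toMul]

end Fermat.Agent.S55.LocalSpec.H964
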