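import Fermat.Agent.S55.LocalSpec.H964.Clause12
import Fermat.Agent.S55.LocalSpec.H964.Clause3
import Fermat.Agent.S55.L.Adapter
import Fermat.Agent.S55.L.Inst63
import Fermat.Agent.S55.T.ClassModuleOfCyclicH53
import Fermat.Agent.S55.Local.H964.T5Closed

/-!
# S55 : `Tow.LocalSpec p` — the TARGET OF LAYER L for the engine E1 — PROVED (helper964)

* `localSpec_of` : `Tow.LocalSpec p` from `L.ClassModuleSpec`, `L.PadicInstSpec`,
  `T.ClassModuleOfCyclicSpec` (`p ≠ 0`).
* `localSpec` : `Tow.LocalSpec p` for every `p ≠ 0`, UNCONDITIONALLY, from landed leaves: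
  the local core `Local.H964.h2Cyclic` (T5) with `L.classModule_of_local'`, `L.padicInst63`,
  `T.H53.classModuleOfCyclic`, helper175's dictionary and the B-layer (Krasner, finite
  ramification).
* re-exports `h2CyclicSpec : L.H2CyclicSpec`, `classModuleSpec : L.ClassModuleSpec`.
-/

set_option autoImplicit false

namespace Fermat.Agent.S55.LocalSpec.H964

open Fermat.Agent.S55

/-- `Tow.LocalSpec p` from the class-module property of local fields. -/
theorem localSpec_of (hCM : L.ClassModuleSpec) (hInst : L.PadicInstSpec)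
    (hT : T.ClassModuleOfCyclicSpec) (p : ℕ) (hp : p ≠ 0) : Tow.LocalSpec p :=
  ⟨fun _ Lv q => exists_isClassModuleAt hCM hInst hT p Lv q,
    fun _ _ _ h q => isZero_H1_ker_projDec hCM hInst h q,
    fun S' Lv q x => exists_root_in_tower p hp S' Lv q x⟩

/-- **L-C1** `H²(Gal(L/K), Lˣ) ≃+ ZMod [L : K]` for local fields, unconditionally. -/
theorem h2CyclicSpec : L.H2CyclicSpec := L.h2Cyclic_of_local Local.H964.h2Cyclic

/-- **L-CM** the class module property of local fields, unconditionally. -/
theorem classModuleSpec : L.ClassModuleSpec := L.classModule_of_local' Local.H964.h2Cyclic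

/-- **TARGET OF LAYER L**: `Tow.LocalSpec p` holds for every `p ≠ 0`, unconditionally. -/
theorem localSpec (p : ℕ) (hp : p ≠ 0) : Tow.LocalSpec p :=
  localSpec_of classModuleSpec L.padicInst63 T.H53.classModuleOfCyclic p hp

end Fermat.Agent.S55.LocalSpec.H964
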