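import Mathlib
import Fermat.Agent.S55.T.Spec
import Fermat.Agent.S55.T.IntSMul
import Fermat.Agent.S55.E1.Defs

/-!
# S55, `Tow.LocalSpec` (helper964): a class module is a class module at every `p`

`isClassModuleAt_of_isClassModule : T.IsClassModule C γ → E1.IsClassModuleAt p C γ`
(the `p`-group hypothesis of `IsClassModuleAt` is not even used).
-/

set_option autoImplicit false
set_option linter.style.haveILetI false

open CategoryTheory groupCohomology

namespace Fermat.Agent.S55.LocalSpec.H964

open Fermat.Agent.S55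

/-- Abstract form: an additive group generated by `g`, with `n • g = 0` and `c • g = 0 → n ∣ c`,
has cardinality `n`, and every element is a natural multiple of `g`. -/
theorem card_eq_of_generator {M : Type*} [AddCommGroup M] (g : M) (n : ℕ) (hn : 0 < n)
    (hgen : ∀ x : M, ∃ c : ℤ, x = c • g) (hann : ∀ c : ℤ, c • g = 0 → (n : ℤ) ∣ c)
    (hkill : (n : ℤ) • g = 0) :
    Nat.card M = n ∧ ∀ x : M, ∃ m : ℕ, x = m • g := by
  have hkill' : n • g = 0 := by rwa [natCast_zsmul] at hkill
  have h1 : addOrderOf g ∣ n := addOrderOf_dvd_of_nsmul_eq_zero hkill'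
  have h2 : n ∣ addOrderOf g := by
    have h0 : ((addOrderOf g : ℕ) : ℤ) • g = 0 := by
      rw [natCast_zsmul]; exact addOrderOf_nsmul_eq_zero g
    exact Int.natCast_dvd_natCast.1 (hann _ h0)
  have hord : addOrderOf g = n := Nat.dvd_antisymm h1 h2
  have htop : AddSubgroup.zmultiples g = ⊤ := by
    rw [eq_top_iff]
    intro x _
    obtain ⟨c, hc⟩ := hgen x
    exact AddSubgroup.mem_zmultiples_iff.2 ⟨c, hc.symm⟩
  constructor
  · rw [← AddSubgroup.card_top (G := M), ← htop, Nat.card_zmultiples, hord]
  · intro x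
    obtain ⟨c, hc⟩ := hgen x
    refine ⟨(c % n).toNat, ?_⟩
    have hnz : (n : ℤ) ≠ 0 := by exact_mod_cast hn.ne'
    have hpos : 0 ≤ c % (n : ℤ) := Int.emod_nonneg c hnz
    have e1 : (((c % (n : ℤ)).toNat : ℕ) : ℤ) = c % n := Int.toNat_of_nonneg hpos
    have e2 : c = c % n + n * (c / n) := (Int.emod_add_mul_ediv c n).symm
    rw [hc, ← natCast_zsmul, e1]
    conv_lhs => rw [e2]
    rw [add_zsmul, mul_comm, mul_zsmul, hkill, zsmul_zero, add_zero]

/-- A class module (in the sense of layer T) is a class module at `p` (in the sense of the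
engine E1). -/
theorem isClassModuleAt_of_isClassModule {G : Type} [Group G] [Finite G] (p : ℕ)
    (C : Rep.{0} ℤ G) (γ : groupCohomology C 2) (h : T.IsClassModule C γ) :
    E1.IsClassModuleAt p C γ := by
  intro H _
  obtain ⟨h1, hgen, hann, hkill⟩ := h H
  have hnpos : 0 < Nat.card H := Nat.card_pos
  have key := card_eq_of_generator ((T.resMap C H 2).hom γ) (Nat.card H) hnpos
    (fun x => by
      obtain ⟨c, hc⟩ := hgen x
      exact ⟨c, by rw [hc, T.modSMul_eq_zsmul]⟩)
    (fun c hc => by
      have hc' := hc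
      rw [← T.modSMul_eq_zsmul (inferInstance : Module ℤ
        (groupCohomology (T.resSub C H) 2))] at hc'
      obtain ⟨d, hd⟩ := hann c hc'
      exact ⟨d, hd⟩)
    (by
      have := hkill
      rw [T.modSMul_eq_zsmul] at this
      exact this)
  exact ⟨h1, key.1, key.2⟩

end Fermat.Agent.S55.LocalSpec.H964
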