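import Mathlib
import Fermat.Agent.S55.T.Spec
import Fermat.Agent.S55.T.IntSMul

/-!
# S55, `Tow.LocalSpec` (helper964): transport of subgroup cohomology along an isomorphism

`(φ : G ≃* G', e : C ≃+ C')` equivariant.  For every subgroup `H ≤ G`:
`Hⁿ(H, C) ≅ Hⁿ(φ H, C')` (`subgroupIso`), hence the "numerical class module" data
(`H¹ = 0`, `H² ≃+ ZMod |H|` for all subgroups) transports (`classData_transport`).
-/

set_option autoImplicit false
set_option linter.style.haveILetI false

open CategoryTheory groupCohomology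

namespace Fermat.Agent.S55.LocalSpec.H964

open Fermat.Agent.S55

section Generic

variable {k : Type} [CommRing k] {G G' : Type} [Group G] [Group G']

/-- Transport of the cohomology of a subgroup along an equivariant isomorphism (generic
coefficient ring). -/
noncomputable def subgroupIsoGen (φ : G ≃* G') (C : Rep.{0} k G) (C' : Rep.{0} k G')
    (e : C.V ≃ₗ[k] C'.V) (he : ∀ g x, e (C.ρ g x) = C'.ρ (φ g) (e x)) (H : Subgroup G) (n : ℕ) :
    groupCohomology (T.resSub C H) n ≅
      groupCohomology (T.resSub C' (H.map (φ : G →* G'))) n :=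
  groupCohomology.mapIso (φ.subgroupMap H) e
    (fun g => LinearMap.ext fun x => he (g : G) x) n

end Generic

variable {G G' : Type} [Group G] [Group G']

/-- An additive equivalence between the underlying groups of two `ℤ`-representations is
`ℤ`-linear (for whatever `Module ℤ` instances the representations carry). -/
def toIntLin (C : Rep.{0} ℤ G) (C' : Rep.{0} ℤ G') (e : C.V ≃+ C'.V) :
    @LinearEquiv ℤ ℤ _ _ (RingHom.id ℤ) (RingHom.id ℤ) _ _ C.V C'.V _ _ C.hV2 C'.hV2 :=
  @LinearEquiv.mk ℤ ℤ _ _ (RingHom.id ℤ) (RingHom.id ℤ) _ _ C.V C'.V _ _ C.hV2 C'.hV2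
    (@LinearMap.mk ℤ ℤ _ _ (RingHom.id ℤ) C.V C'.V _ _ C.hV2 C'.hV2
      ⟨e, e.map_add⟩ (fun c x => by
        show e (@HSMul.hSMul ℤ C.V C.V (@instHSMul ℤ C.V C.hV2.toSMul) c x) =
          @HSMul.hSMul ℤ C'.V C'.V (@instHSMul ℤ C'.V C'.hV2.toSMul) c (e x)
        exact (congrArg e (T.modSMul_eq_zsmul C.hV2 c x)).trans
          ((map_zsmul e c x).trans (T.modSMul_eq_zsmul C'.hV2 c (e x)).symm)))
    e.symm e.left_inv e.right_inv

lemma toIntLin_apply (C : Rep.{0} ℤ G) (C' : Rep.{0} ℤ G') (e : C.V ≃+ C'.V) (x : C.V) :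
    (toIntLin C C' e) x = e x := rfl

/-- Transport of the cohomology of a subgroup along an equivariant isomorphism. -/
noncomputable def subgroupIso (φ : G ≃* G') (C : Rep.{0} ℤ G) (C' : Rep.{0} ℤ G')
    (e : C.V ≃+ C'.V) (he : ∀ g x, e (C.ρ g x) = C'.ρ (φ g) (e x)) (H : Subgroup G) (n : ℕ) :
    groupCohomology (T.resSub C H) n ≅
      groupCohomology (T.resSub C' (H.map (φ : G →* G'))) n :=
  subgroupIsoGen (k := ℤ) φ C C' (toIntLin C C' e) he H n

/-- Transport of the numerical class-module data. -/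
theorem classData_transport (φ : G ≃* G') (C : Rep.{0} ℤ G) (C' : Rep.{0} ℤ G')
    (e : C.V ≃+ C'.V) (he : ∀ g x, e (C.ρ g x) = C'.ρ (φ g) (e x))
    (h' : ∀ H' : Subgroup G', Subsingleton (groupCohomology (T.resSub C' H') 1) ∧
      Nonempty (groupCohomology (T.resSub C' H') 2 ≃+ ZMod (Nat.card H')))
    (H : Subgroup G) :
    Limits.IsZero (groupCohomology (T.resSub C H) 1) ∧
      Nonempty (groupCohomology (T.resSub C H) 2 ≃+ ZMod (Nat.card H)) := by
  obtain ⟨h1, ⟨e2⟩⟩ := h' (H.map (φ : G →* G'))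
  constructor
  · have hz : Limits.IsZero (groupCohomology (T.resSub C' (H.map (φ : G →* G'))) 1) :=
      ModuleCat.isZero_of_subsingleton _
    exact hz.of_iso (subgroupIso φ C C' e he H 1)
  · have hcard : Nat.card (H.map (φ : G →* G')) = Nat.card H :=
      (Nat.card_congr (φ.subgroupMap H).toEquiv).symm
    rw [hcard] at e2
    exact ⟨((subgroupIso φ C C' e he H 2).toLinearEquiv.toAddEquiv).trans e2⟩

end Fermat.Agent.S55.LocalSpec.H964
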