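import Fermat.Agent.S55.Spec.Datum
import Fermat.Agent.S55.Bridge.H175.TowerDict
import Fermat.Agent.S55.L.SpecClass
import Fermat.Agent.S55.T.Spec2
import Fermat.Agent.S55.LocalSpec.H964.Transport
import Fermat.Agent.S55.LocalSpec.H964.ClassAt

/-!
# S55, `Tow.LocalSpec` (helper964): clauses 1 (GD2) and 2 (LH90)

For a level `F` (finite Galois over `ℚ`) and a prime `q`, the module `F_qˣ = L.locUnits q` of the
decomposition group `L.Dec q = Gal(F_q/ℚ_q)` of the tower:

* `locUnits_classData` : for every subgroup `H`, `H¹(H, F_qˣ) = 0` and `H²(H, F_qˣ) ≃+ ZMod |H|`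
  (from `L.ClassModuleSpec` for `ℚ_q`, by helper175's dictionary `decEquiv`, `locUnitsEquiv`);
* `exists_isClassModuleAt` : clause 1 of `Tow.LocalSpec`;
* `isZero_H1_ker_projDec` : clause 2 of `Tow.LocalSpec`.
-/

set_option autoImplicit false
set_option linter.style.haveILetI false

open CategoryTheory groupCohomology

namespace Fermat.Agent.S55.LocalSpec.H964

open Fermat.Agent.S55 Fermat.Agent.S55.Bridge.H175

variable {S : Finset Nat.Primes}

/-- The numerical class-module data for `F_qˣ` over the decomposition group of the tower. -/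
theorem locUnits_classData (hCM : L.ClassModuleSpec) (hInst : L.PadicInstSpec)
    (Lv : Tow.Level S) (q : Nat.Primes) (H : Subgroup (Lv.Dec q)) :
    Limits.IsZero (groupCohomology (T.resSub (Lv.locUnits q) H) 1) ∧
      Nonempty (groupCohomology (T.resSub (Lv.locUnits q) H) 2 ≃+ ZMod (Nat.card H)) := by
  letI : Fact (q : ℕ).Prime := ⟨q.2⟩
  haveI : Fermat.Agent.S55.L.IsLocalFld ℚ_[(q : ℕ)] := hInst (q : ℕ)
  haveI := level_finiteDimensional Lv
  haveI := level_normal Lv
  haveI : FiniteDimensional ℚ_[(q : ℕ)] (primeLocalLevel q Lv.F) :=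
    finiteDimensional_primeLocalLevel q Lv.F
  haveI : IsGalois ℚ_[(q : ℕ)] (primeLocalLevel q Lv.F) := isGalois_primeLocalLevel q Lv.F
  exact classData_transport (decEquiv Lv q) (Lv.locUnits q)
    (Rep.ofAlgebraAutOnUnits ℚ_[(q : ℕ)] (primeLocalLevel q Lv.F)) (locUnitsEquiv Lv q)
    (locUnitsEquiv_ρ Lv q) (fun H' => hCM ℚ_[(q : ℕ)] (primeLocalLevel q Lv.F) H') H

/-- Clause 1 of `Tow.LocalSpec` (GD2): `F_qˣ` is a class module at `p` (for every `p`). -/
theorem exists_isClassModuleAt (hCM : L.ClassModuleSpec) (hInst : L.PadicInstSpec)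
    (hT : T.ClassModuleOfCyclicSpec) (p : ℕ) (Lv : Tow.Level S) (q : Nat.Primes) :
    ∃ γ : groupCohomology (Lv.locUnits q) 2, E1.IsClassModuleAt p (Lv.locUnits q) γ := by
  obtain ⟨⟨γ, hγ⟩, -⟩ := hT (Lv.Dec q) (Lv.locUnits q)
    (fun H => (locUnits_classData hCM hInst Lv q H).1)
    (fun H => (locUnits_classData hCM hInst Lv q H).2)
  exact ⟨γ, isClassModuleAt_of_isClassModule p _ γ hγ⟩

/-- Clause 2 of `Tow.LocalSpec` (LH90): Hilbert 90 for `F'_q / F_q`. -/
theorem isZero_H1_ker_projDec (hCM : L.ClassModuleSpec) (hInst : L.PadicInstSpec)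
    {Lv Lv' : Tow.Level S} (h : Lv ≤ Lv') (q : Nat.Primes) :
    Limits.IsZero
      (groupCohomology (T.resSub (Lv'.locUnits q) (Tow.Level.projDec h q).ker) 1) :=
  (locUnits_classData hCM hInst Lv' q _).1

end Fermat.Agent.S55.LocalSpec.H964
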